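import Mathlib.Algebra.Algebra.NonUnitalSubalgebra
import Mathlib.Algebra.Polynomial.Roots
import Mathlib.Algebra.CharZero.Infinite
import Mathlib.LinearAlgebra.Dual.Lemmas
import Mathlib.LinearAlgebra.Basis.VectorSpace
import Mathlib.Algebra.BigOperators.Field
import Mathlib.Tactic.NoncommRing

/-!
# The theorem of Nagata and Higman

Linearising `x ^ (n + 1) ∈ J` and counting the double sum
`∑ x ^ i z y ^ j x ^ (n - i) y ^ (n - j)` in two ways gives `x ^ n z y ^ n ∈ J`, so products of
twice as many factors, and one more, as are needed for the `n`th powers lie in `J`.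
-/

set_option autoImplicit false

namespace FA.NagataHigman

variable {K : Type*} [Field K] {A : Type*} [Ring A] [Algebra K A]

omit [Algebra K A] in
/-- The coefficients of `(x + t y) ^ m`. -/
def powCoeff (x y : A) : ℕ → ℕ → A
  | 0, 0 => 1
  | 0, _ + 1 => 0
  | m + 1, 0 => powCoeff x y m 0 * x
  | m + 1, k + 1 => powCoeff x y m (k + 1) * x + powCoeff x y m k * y

theorem powCoeff_of_lt (x y : A) : ∀ {m k : ℕ}, m < k → powCoeff x y m k = 0
  | 0, _ + 1, _ => rfl
  | m + 1, k + 1, h => by
    rw [powCoeff, powCoeff_of_lt x y (by omega), powCoeff_of_lt x y (by omega), zero_mul, zero_mul,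
      add_zero]

theorem powCoeff_zero (x y : A) : ∀ m, powCoeff x y m 0 = x ^ m
  | 0 => (pow_zero x).symm
  | m + 1 => by rw [powCoeff, powCoeff_zero x y m, pow_succ]

theorem powCoeff_one (x y : A) : ∀ m, powCoeff x y (m + 1) 1 =
    ∑ i ∈ Finset.range (m + 1), x ^ i * y * x ^ (m - i)
  | 0 => by simp [powCoeff]
  | m + 1 => by
    rw [powCoeff, powCoeff_one x y m, powCoeff_zero, Finset.sum_range_succ _ (m + 1),
      Finset.sum_mul,
      Nat.sub_self, pow_zero, mul_one]
    refine congrArg (· + _) (Finset.sum_congr rfl fun i hi => ?_)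
    rw [mul_assoc, ← pow_succ, show m - i + 1 = m + 1 - i by
      have := Finset.mem_range.1 hi; omega]

theorem add_smul_pow (x y : A) (t : K) : ∀ m, (x + t • y) ^ m =
    ∑ k ∈ Finset.range (m + 1), t ^ k • powCoeff x y m k
  | 0 => by simp [powCoeff]
  | m + 1 => by
    rw [pow_succ, add_smul_pow x y t m, Finset.sum_range_succ' _ (m + 1)]
    simp only [powCoeff, smul_add, Finset.sum_add_distrib, pow_zero, one_smul]
    rw [mul_add, Finset.sum_mul, Finset.sum_mul, Finset.sum_range_succ' (n := m),
      Finset.sum_range_succ (fun k => t ^ (k + 1) • (powCoeff x y m (k + 1) * x)) m,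
      powCoeff_of_lt x y (Nat.lt_succ_self m), zero_mul, smul_zero, add_zero]
    simp only [smul_mul_assoc, mul_smul_comm, smul_smul, ← pow_succ', pow_zero, one_smul]
    abel

variable [CharZero K]

/-- A polynomial family in a submodule has its coefficients there. -/
theorem mem_of_forall_sum {J : Submodule K A} {m : ℕ} {a : ℕ → A}
    (h : ∀ t : K, ∑ k ∈ Finset.range (m + 1), t ^ k • a k ∈ J) {k : ℕ} (hk : k ≤ m) : a k ∈ J := by
  rw [← Submodule.Quotient.mk_eq_zero, ← Module.forall_dual_apply_eq_zero_iff K]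
  intro φ
  have hp : (∑ l ∈ Finset.range (m + 1), Polynomial.C (φ (Submodule.Quotient.mk (a l))) *
      Polynomial.X ^ l) = 0 := by
    refine Polynomial.funext fun t => ?_
    have h0 := congrArg φ ((Submodule.Quotient.mk_eq_zero J).2 (h t))
    rw [map_zero, ← Submodule.mkQ_apply, map_sum, map_sum] at h0
    rw [Polynomial.eval_zero, ← h0, Polynomial.eval_finsetSum]
    refine Finset.sum_congr rfl fun l _ => ?_
    rw [Polynomial.eval_mul, Polynomial.eval_C, Polynomial.eval_pow, Polynomial.eval_X, map_smul,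
      map_smul, smul_eq_mul, mul_comm]
    rfl
  have := congrArg (fun p => Polynomial.coeff p k) hp
  simpa [Polynomial.finsetSum_coeff, Finset.sum_ite_eq, Nat.lt_succ_iff.2 hk] using this

variable (S : NonUnitalSubalgebra K A)

/-- A submodule unchanged by multiplication by the subalgebra on both sides. -/
def Stable (J : Submodule K A) : Prop :=
  ∀ s ∈ S, ∀ a ∈ J, s * a ∈ J ∧ a * s ∈ J

variable {S}

/-- A factor from the subalgebra, or none. -/
def IsFactor (S : NonUnitalSubalgebra K A) (c : A) : Prop :=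
  c = 1 ∨ c ∈ S

omit [CharZero K] in
theorem IsFactor.mul {c c' : A} (hc : IsFactor S c) (hc' : IsFactor S c') :
    IsFactor S (c * c') := by
  rcases hc with rfl | hc
  · rwa [one_mul]
  rcases hc' with rfl | hc'
  · exact Or.inr (by rwa [mul_one])
  · exact Or.inr (mul_mem hc hc')

omit [CharZero K] in
theorem IsFactor.pow {x : A} (hx : x ∈ S) : ∀ m : ℕ, IsFactor S (x ^ m)
  | 0 => Or.inl (pow_zero x)
  | m + 1 => pow_succ x m ▸ (IsFactor.pow hx m).mul (Or.inr hx)

omit [CharZero K] in
theorem IsFactor.list {l : List A} (h : ∀ a ∈ l, a ∈ S) : IsFactor S l.prod := by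
  induction l with
  | nil => exact Or.inl List.prod_nil
  | cons a l ih =>
    rw [List.prod_cons]
    exact IsFactor.mul (Or.inr (h a List.mem_cons_self))
      (ih fun b hb => h b (List.mem_cons_of_mem a hb))

omit [CharZero K] in
theorem mul_mem_of_factor {J : Submodule K A} (hJ : Stable S J) {a c : A} (ha : a ∈ J)
    (hc : IsFactor S c) : c * a ∈ J ∧ a * c ∈ J := by
  rcases hc with rfl | hc
  · rw [one_mul, mul_one]
    exact ⟨ha, ha⟩
  · exact hJ c hc a ha

/-- **The key step.** -/
theorem pow_mul_pow_mem {J : Submodule K A} (hJ : Stable S J) {n : ℕ}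
    (hpow : ∀ x ∈ S, x ^ (n + 1) ∈ J) {x y z : A} (hx : x ∈ S) (hy : y ∈ S) (hz : z ∈ S) :
    x ^ n * z * y ^ n ∈ J := by
  have hlin : ∀ x y : A, x ∈ S → y ∈ S →
      ∑ i ∈ Finset.range (n + 1), x ^ i * y * x ^ (n - i) ∈ J := fun x y hx hy => by
    rw [← powCoeff_one]
    refine mem_of_forall_sum (m := n + 1) (a := powCoeff x y (n + 1)) (fun t => ?_) (by omega)
    rw [← add_smul_pow]
    exact hpow _ (add_mem hx (SMulMemClass.smul_mem t hy))
  set F : ℕ → ℕ → A := fun i j => x ^ i * z * y ^ j * x ^ (n - i) * y ^ (n - j) with hF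
  have h1 : ∑ i ∈ Finset.range (n + 1), ∑ j ∈ Finset.range (n + 1), F i j ∈ J := by
    rw [Finset.sum_comm]
    refine sum_mem fun j _ => ?_
    rw [← Finset.sum_mul]
    refine (mul_mem_of_factor hJ ?_ (IsFactor.pow hy _)).2
    have hzy : z * y ^ j ∈ S := by
      rcases IsFactor.pow hy j with h | h
      · rwa [h, mul_one]
      · exact mul_mem hz h
    simpa only [← mul_assoc] using hlin x (z * y ^ j) hx hzy
  rw [Finset.sum_range_succ] at h1
  have h2 : ∑ i ∈ Finset.range n, ∑ j ∈ Finset.range (n + 1), F i j ∈ J := by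
    refine sum_mem fun i hi => ?_
    have hxi : x ^ (n - i) ∈ S := by
      obtain ⟨e, he⟩ : ∃ e, n - i = e + 1 := ⟨n - i - 1, by have := Finset.mem_range.1 hi; omega⟩
      rw [he, pow_succ]
      rcases IsFactor.pow hx e with h | h
      · rwa [h, one_mul]
      · exact mul_mem h hx
    have := (mul_mem_of_factor hJ (hlin y (x ^ (n - i)) hy hxi)
      ((IsFactor.pow hx i).mul (Or.inr hz))).1
    simpa only [hF, Finset.mul_sum, ← mul_assoc] using this
  have h3 := sub_mem h1 h2
  rw [add_sub_cancel_left, Finset.sum_congr rfl fun j hj => show F n j = x ^ n * z * y ^ n by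
      simp only [hF, Nat.sub_self, pow_zero, mul_one]
      rw [mul_assoc, ← pow_add, Nat.add_sub_cancel' (Nat.lt_succ_iff.1 (Finset.mem_range.1 hj))],
    Finset.sum_const, Finset.card_range, ← Nat.cast_smul_eq_nsmul K] at h3
  have := J.smul_mem (((n + 1 : ℕ) : K)⁻¹) h3
  rwa [inv_smul_smul₀ (Nat.cast_ne_zero.2 (Nat.succ_ne_zero n))] at this

/-- **The theorem of Dubnov, Ivanov, Nagata and Higman.** -/
theorem prod_mem : ∀ (n : ℕ) (J : Submodule K A), Stable S J → (∀ x ∈ S, x ^ n ∈ J) →
    ∀ l : List A, l.length = 2 ^ n - 1 → (∀ a ∈ l, a ∈ S) → l.prod ∈ J := by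
  intro n
  induction n with
  | zero =>
    intro J _ hpow l hl _
    obtain rfl : l = [] := List.length_eq_zero_iff.1 (by simpa using hl)
    rw [List.prod_nil, ← pow_zero (0 : A)]
    exact hpow 0 (zero_mem S)
  | succ n ih =>
    intro J hJ hpow l hl hmem
    set T : Submodule K A :=
      Submodule.span K {a | ∃ u x v, IsFactor S u ∧ x ∈ S ∧ IsFactor S v ∧ a = u * x ^ n * v}
    have hT : Stable S (J ⊔ T) := fun s hs a ha => by
      obtain ⟨b, hb, c, hc, rfl⟩ := Submodule.mem_sup.1 ha
      rw [mul_add, add_mul]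
      refine ⟨add_mem (Submodule.mem_sup_left (hJ s hs b hb).1) (Submodule.mem_sup_right ?_),
        add_mem (Submodule.mem_sup_left (hJ s hs b hb).2) (Submodule.mem_sup_right ?_)⟩
      · clear ha
        induction hc using Submodule.span_induction with
        | mem c hc =>
          obtain ⟨u, x, v, hu, hx, hv, rfl⟩ := hc
          exact Submodule.subset_span ⟨s * u, x, v, IsFactor.mul (Or.inr hs) hu, hx, hv,
            by simp only [mul_assoc]⟩
        | zero => rw [mul_zero]; exact zero_mem _
        | add p q _ _ hp hq => rw [mul_add]; exact add_mem hp hq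
        | smul t p _ hp => rw [mul_smul_comm]; exact Submodule.smul_mem _ t hp
      · clear ha
        induction hc using Submodule.span_induction with
        | mem c hc =>
          obtain ⟨u, x, v, hu, hx, hv, rfl⟩ := hc
          exact Submodule.subset_span ⟨u, x, v * s, hu, hx, IsFactor.mul hv (Or.inr hs),
            by simp only [mul_assoc]⟩
        | zero => rw [zero_mul]; exact zero_mem _
        | add p q _ _ hp hq => rw [add_mul]; exact add_mem hp hq
        | smul t p _ hp => rw [smul_mul_assoc]; exact Submodule.smul_mem _ t hp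
    have hpow' : ∀ x ∈ S, x ^ n ∈ J ⊔ T := fun x hx => Submodule.mem_sup_right
      (Submodule.subset_span ⟨1, x, 1, Or.inl rfl, hx, Or.inl rfl, by rw [one_mul, mul_one]⟩)
    have h2 : 2 ^ (n + 1) - 1 = (2 ^ n - 1) + ((2 ^ n - 1) + 1) := by
      have := Nat.one_le_two_pow (n := n)
      rw [pow_succ]
      omega
    rw [h2] at hl
    obtain ⟨l₁, z, l₂, rfl, hl1, hl2⟩ : ∃ l₁ z l₂, l = l₁ ++ z :: l₂ ∧ l₁.length = 2 ^ n - 1 ∧
        l₂.length = 2 ^ n - 1 := by
      obtain ⟨z, l₂, hz⟩ := List.exists_cons_of_length_pos (l := l.drop (2 ^ n - 1))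
        (by rw [List.length_drop]; omega)
      refine ⟨l.take (2 ^ n - 1), z, l₂, by rw [← hz, List.take_append_drop],
        by rw [List.length_take]; omega, ?_⟩
      have := congrArg List.length hz
      rw [List.length_drop, List.length_cons] at this
      omega
    have hzS : z ∈ S := hmem z (by simp)
    have hS₁ : ∀ a ∈ l₁, a ∈ S := fun a ha => hmem a (List.mem_append_left _ ha)
    have hS₂ : ∀ a ∈ l₂, a ∈ S := fun a ha =>
      hmem a (List.mem_append_right _ (List.mem_cons_of_mem z ha))
    obtain ⟨j₁, hj₁, q₁, hq₁, e₁⟩ := Submodule.mem_sup.1 (ih _ hT hpow' l₁ hl1 hS₁)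
    obtain ⟨j₂, hj₂, q₂, hq₂, e₂⟩ := Submodule.mem_sup.1 (ih _ hT hpow' l₂ hl2 hS₂)
    rw [List.prod_append, List.prod_cons, ← mul_assoc,
      show l₁.prod * z * l₂.prod = j₁ * z * l₂.prod + q₁ * (z * j₂) + q₁ * z * q₂ by
        rw [← e₁, ← e₂]; noncomm_ring]
    clear e₁ e₂
    refine add_mem (add_mem ((mul_mem_of_factor hJ (hJ z hzS j₁ hj₁).2 (IsFactor.list hS₂)).2) ?_)
      ?_
    · induction hq₁ using Submodule.span_induction with
      | mem c hc =>
        obtain ⟨u, x, v, hu, hx, hv, rfl⟩ := hc
        exact (mul_mem_of_factor hJ (hJ z hzS j₂ hj₂).1 ((hu.mul (IsFactor.pow hx n)).mul hv)).1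
      | zero => rw [zero_mul]; exact zero_mem _
      | add p q _ _ hp hq => rw [add_mul]; exact add_mem hp hq
      | smul t p _ hp => rw [smul_mul_assoc]; exact Submodule.smul_mem _ t hp
    · induction hq₁ using Submodule.span_induction with
      | mem c hc =>
        obtain ⟨u, x, v, hu, hx, hv, rfl⟩ := hc
        induction hq₂ using Submodule.span_induction with
        | mem d hd =>
          obtain ⟨u', y, v', hu', hy, hv', rfl⟩ := hd
          have hw : v * z * u' ∈ S := by
            have hvz : v * z ∈ S := by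
              rcases hv with rfl | hv
              · rwa [one_mul]
              · exact mul_mem hv hzS
            rcases hu' with rfl | hu'
            · rwa [mul_one]
            · exact mul_mem hvz hu'
          have := (mul_mem_of_factor hJ (mul_mem_of_factor hJ
            (pow_mul_pow_mem hJ hpow hx hy hw) hu).1 hv').2
          simpa only [mul_assoc] using this
        | zero => rw [mul_zero]; exact zero_mem _
        | add p q _ _ hp hq => rw [mul_add]; exact add_mem hp hq
        | smul t p _ hp => rw [mul_smul_comm]; exact Submodule.smul_mem _ t hp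
      | zero => rw [zero_mul, zero_mul]; exact zero_mem _
      | add p q _ _ hp hq => rw [add_mul, add_mul]; exact add_mem hp hq
      | smul t p _ hp => rw [smul_mul_assoc, smul_mul_assoc]; exact Submodule.smul_mem _ t hp

end FA.NagataHigman
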