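import Fermat.Agent.MatrixInvariants.Main
import Fermat.Agent.NagataHigman.Higman
import Mathlib.LinearAlgebra.Matrix.Charpoly.Coeff
import Mathlib.LinearAlgebra.Matrix.Charpoly.Basic
import Mathlib.RingTheory.FiniteType
import Mathlib.Data.Set.Finite.List

/-!
# Finite generation of matrix invariants

By Cayley and Hamilton the `n`th power of a combination of nonempty words is a combination of words
with coefficients having a trace as a factor, so by Nagata and Higman so is every product of
`2 ^ n - 1` generic matrices, and a longer word has trace a polynomial in shorter ones.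
-/

set_option autoImplicit false

noncomputable section

namespace FA.NagataHigman

open MvPolynomial
open FA.MatrixInvariants

variable (K : Type*) [Field K] (τ ι : Type*) [Fintype ι] [DecidableEq ι]

/-- The product of a word in the generic matrices. -/
def wordMat (w : List τ) : Matrix ι ι (MvPolynomial (τ × ι × ι) K) :=
  (w.map (gen K ι)).prod

/-- The span of the nonempty words. -/
def wordSpan : Submodule K (Matrix ι ι (MvPolynomial (τ × ι × ι) K)) :=
  Submodule.span K {a | ∃ w : List τ, w ≠ [] ∧ a = wordMat K τ ι w}

/-- The products of traces of words. -/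
def traceMon : Submonoid (MvPolynomial (τ × ι × ι) K) :=
  Submonoid.closure (Set.range fun w : List τ => (wordMat K τ ι w).trace)

/-- The coefficients with a trace of a nonempty word as a factor. -/
def augSpan : Submodule K (MvPolynomial (τ × ι × ι) K) :=
  Submodule.span K {r | ∃ w : List τ, w ≠ [] ∧ ∃ q ∈ traceMon K τ ι,
    r = (wordMat K τ ι w).trace * q}

/-- The combinations of words with such coefficients. -/
def augMat : Submodule K (Matrix ι ι (MvPolynomial (τ × ι × ι) K)) :=
  Submodule.span K {a | ∃ r ∈ augSpan K τ ι, ∃ w : List τ, a = r • wordMat K τ ι w}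

variable {K τ ι}

theorem wordMat_append (u w : List τ) :
    wordMat K τ ι (u ++ w) = wordMat K τ ι u * wordMat K τ ι w := by
  rw [wordMat, List.map_append, List.prod_append]
  rfl

theorem wordSpan_mul {a b : Matrix ι ι (MvPolynomial (τ × ι × ι) K)} (ha : a ∈ wordSpan K τ ι)
    (hb : b ∈ wordSpan K τ ι) : a * b ∈ wordSpan K τ ι := by
  induction ha using Submodule.span_induction with
  | mem a ha =>
    obtain ⟨u, hu, rfl⟩ := ha
    induction hb using Submodule.span_induction with
    | mem b hb =>
      obtain ⟨w, -, rfl⟩ := hb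
      exact Submodule.subset_span ⟨u ++ w, by simp [hu], (wordMat_append u w).symm⟩
    | zero => rw [mul_zero]; exact zero_mem _
    | add p q _ _ hp hq => rw [mul_add]; exact add_mem hp hq
    | smul t p _ hp => rw [mul_smul_comm]; exact Submodule.smul_mem _ t hp
  | zero => rw [zero_mul]; exact zero_mem _
  | add p q _ _ hp hq => rw [add_mul]; exact add_mem hp hq
  | smul t p _ hp => rw [smul_mul_assoc]; exact Submodule.smul_mem _ t hp

variable (K τ ι) in
/-- The nonempty words as an algebra without unit. -/
def wordAlg : NonUnitalSubalgebra K (Matrix ι ι (MvPolynomial (τ × ι × ι) K)) :=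
  { wordSpan K τ ι with mul_mem' := wordSpan_mul }

theorem stable_augMat : Stable (wordAlg K τ ι) (augMat K τ ι) := by
  intro s hs0 a ha
  have hs : s ∈ wordSpan K τ ι := hs0
  clear hs0
  induction ha using Submodule.span_induction with
  | mem a ha =>
    obtain ⟨r, hr, w, rfl⟩ := ha
    induction hs using Submodule.span_induction with
    | mem s hs =>
      obtain ⟨u, -, rfl⟩ := hs
      exact ⟨Submodule.subset_span ⟨r, hr, u ++ w, by rw [wordMat_append, Matrix.mul_smul]⟩,
        Submodule.subset_span ⟨r, hr, w ++ u, by rw [wordMat_append, Matrix.smul_mul]⟩⟩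
    | zero => rw [zero_mul, mul_zero]; exact ⟨zero_mem _, zero_mem _⟩
    | add p q _ _ hp hq =>
      rw [add_mul, mul_add]; exact ⟨add_mem hp.1 hq.1, add_mem hp.2 hq.2⟩
    | smul t p _ hp =>
      rw [smul_mul_assoc t p, mul_smul_comm t _ p]
      exact ⟨Submodule.smul_mem _ t hp.1, Submodule.smul_mem _ t hp.2⟩
  | zero => rw [mul_zero, zero_mul]; exact ⟨zero_mem _, zero_mem _⟩
  | add p q _ _ hp hq => rw [mul_add, add_mul]; exact ⟨add_mem hp.1 hq.1, add_mem hp.2 hq.2⟩
  | smul t p _ hp =>
    rw [mul_smul_comm, smul_mul_assoc]
    exact ⟨Submodule.smul_mem _ t hp.1, Submodule.smul_mem _ t hp.2⟩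

theorem augSpan_mul {a b : MvPolynomial (τ × ι × ι) K} (ha : a ∈ augSpan K τ ι)
    (hb : b ∈ augSpan K τ ι) : a * b ∈ augSpan K τ ι := by
  induction ha using Submodule.span_induction with
  | mem a ha =>
    obtain ⟨u, hu, q, hq, rfl⟩ := ha
    induction hb using Submodule.span_induction with
    | mem b hb =>
      obtain ⟨w, -, q', hq', rfl⟩ := hb
      exact Submodule.subset_span ⟨u, hu, q * ((wordMat K τ ι w).trace * q'),
        mul_mem hq (mul_mem (Submonoid.subset_closure ⟨w, rfl⟩) hq'), mul_assoc _ _ _⟩
    | zero => rw [mul_zero]; exact zero_mem _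
    | add p q _ _ hp hq => rw [mul_add]; exact add_mem hp hq
    | smul t p _ hp => rw [mul_smul_comm]; exact Submodule.smul_mem _ t hp
  | zero => rw [zero_mul]; exact zero_mem _
  | add p q _ _ hp hq => rw [add_mul]; exact add_mem hp hq
  | smul t p _ hp => rw [smul_mul_assoc]; exact Submodule.smul_mem _ t hp

theorem smul_mem_augMat {r : MvPolynomial (τ × ι × ι) K} (hr : r ∈ augSpan K τ ι)
    {a : Matrix ι ι (MvPolynomial (τ × ι × ι) K)}
    (ha : a = 1 ∨ a ∈ wordSpan K τ ι) : r • a ∈ augMat K τ ι := by
  rcases ha with rfl | ha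
  · exact Submodule.subset_span ⟨r, hr, [], by simp [wordMat]⟩
  induction ha using Submodule.span_induction with
  | mem a ha =>
    obtain ⟨w, -, rfl⟩ := ha
    exact Submodule.subset_span ⟨r, hr, w, rfl⟩
  | zero => rw [smul_zero]; exact zero_mem _
  | add p q _ _ hp hq => rw [smul_add]; exact add_mem hp hq
  | smul t p _ hp => rw [smul_comm]; exact Submodule.smul_mem _ t hp

theorem trace_mem_augSpan {a : Matrix ι ι (MvPolynomial (τ × ι × ι) K)}
    (ha : a ∈ wordSpan K τ ι) : a.trace ∈ augSpan K τ ι := by
  induction ha using Submodule.span_induction with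
  | mem a ha =>
    obtain ⟨w, hw, rfl⟩ := ha
    exact Submodule.subset_span ⟨w, hw, 1, one_mem _, (mul_one _).symm⟩
  | zero => rw [Matrix.trace_zero]; exact zero_mem _
  | add p q _ _ hp hq => rw [Matrix.trace_add]; exact add_mem hp hq
  | smul t p _ hp => rw [Matrix.trace_smul]; exact Submodule.smul_mem _ t hp

variable [CharZero K]

/-- **The coefficients of the characteristic polynomial.** -/
theorem charpoly_coeff_mem {x : Matrix ι ι (MvPolynomial (τ × ι × ι) K)}
    (hx : x ∈ wordSpan K τ ι) {i : ℕ} (hi : i < Fintype.card ι) :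
    x.charpoly.coeff i ∈ augSpan K τ ι := by
  set Y : Matrix ι ι (MvPolynomial (ι × ι) K) := Matrix.of fun a b => X (a, b)
  set φ : MvPolynomial (ι × ι) K →ₐ[K] MvPolynomial (τ × ι × ι) K :=
    aeval fun v => x v.1 v.2
  have hφY : φ.toRingHom.mapMatrix Y = x := by
    ext a b
    simp [φ, Y]
  have hev : ∀ A : Matrix ι ι K, (eval fun v : ι × ι => A v.1 v.2).mapMatrix Y = A := fun A => by
    ext a b
    simp [Y]
  have hp : Y.charpoly.coeff i ∈ Algebra.adjoin K (Set.range fun j : ℕ => (Y ^ j).trace) := by
    set e : MvPolynomial (ι × ι) K →ₐ[K] MvPolynomial (Unit × ι × ι) K :=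
      rename fun p => ((), p)
    set e' : MvPolynomial (Unit × ι × ι) K →ₐ[K] MvPolynomial (ι × ι) K := rename Prod.snd
    have he : ∀ p, e' (e p) = p := fun p => by
      simp only [e, e', rename_rename]
      exact rename_id_apply p
    have hinv : IsConjInv (e (Y.charpoly.coeff i)) := fun g A => by
      simp only [e, evalAt, eval_rename]
      have hc : ∀ B : Matrix ι ι K, eval (fun v : ι × ι => B v.1 v.2) (Y.charpoly.coeff i) =
          B.charpoly.coeff i := fun B => by
        rw [← Polynomial.coeff_map, ← Matrix.charpoly_map, ← RingHom.mapMatrix_apply, hev]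
      show eval (fun v : ι × ι => ((g : Matrix ι ι K) * A () * (↑g⁻¹ : Matrix ι ι K)) v.1 v.2) _ =
        eval (fun v : ι × ι => A () v.1 v.2) _
      rw [hc, hc (A ()), Matrix.coe_units_inv, Matrix.charpoly_units_conj]
    have h1 : e' (e (Y.charpoly.coeff i)) ∈ (traceAlg K Unit ι).map e' :=
      ⟨_, (isConjInv_iff _).1 hinv, rfl⟩
    rw [he, traceAlg, AlgHom.map_adjoin] at h1
    refine Algebra.adjoin_mono ?_ h1
    rintro _ ⟨_, ⟨w, rfl⟩, rfl⟩
    refine ⟨w.length, ?_⟩
    have hg : e'.toRingHom.mapMatrix (gen K ι ()) = Y := by
      ext a b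
      simp [e', gen, Y]
    show (Y ^ w.length).trace = e' _
    rw [show e' ((w.map (gen K ι)).prod).trace =
      (e'.toRingHom.mapMatrix (w.map (gen K ι)).prod).trace by simp [Matrix.trace, map_sum],
      map_list_prod, List.map_map, show (e'.toRingHom.mapMatrix ∘ gen K ι) = fun _ => Y from
        funext fun _ => hg, List.map_const', List.prod_replicate]
  have key : ∀ p ∈ Algebra.adjoin K (Set.range fun j : ℕ => (Y ^ j).trace),
      φ p - C (constantCoeff p) ∈ augSpan K τ ι := fun p hp => by
    induction hp using Algebra.adjoin_induction with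
    | mem q hq =>
      obtain ⟨j, rfl⟩ := hq
      show φ (Y ^ j).trace - C (constantCoeff (Y ^ j).trace) ∈ _
      rw [show φ (Y ^ j).trace = (φ.toRingHom.mapMatrix (Y ^ j)).trace by
          simp [Matrix.trace, map_sum],
        show constantCoeff (Y ^ j).trace = ((constantCoeff (R := K)).mapMatrix (Y ^ j)).trace by
          simp [Matrix.trace, map_sum],
        map_pow, map_pow, hφY, show (constantCoeff (R := K)).mapMatrix Y = 0 by ext a b; simp [Y]]
      cases j with
      | zero =>
        rw [pow_zero, pow_zero, Matrix.trace_one, Matrix.trace_one, map_natCast, sub_self]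
        exact zero_mem _
      | succ j =>
        rw [zero_pow (Nat.succ_ne_zero j), Matrix.trace_zero, C_0, sub_zero]
        refine trace_mem_augSpan ?_
        induction j with
        | zero => rwa [pow_one]
        | succ j ih => rw [pow_succ]; exact wordSpan_mul ih hx
    | algebraMap r => simp [φ]
    | add a b _ _ ha hb =>
      rw [map_add, map_add, map_add, add_sub_add_comm]
      exact add_mem ha hb
    | mul a b _ _ ha hb =>
      rw [map_mul, map_mul, map_mul, show φ a * φ b - C (constantCoeff a) * C (constantCoeff b) =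
        (φ a - C (constantCoeff a)) * (φ b - C (constantCoeff b)) +
          constantCoeff a • (φ b - C (constantCoeff b)) +
          constantCoeff b • (φ a - C (constantCoeff a)) by
        rw [smul_eq_C_mul, smul_eq_C_mul]; ring]
      exact add_mem (add_mem (augSpan_mul ha hb) (Submodule.smul_mem _ _ hb))
        (Submodule.smul_mem _ _ ha)
  have h := key _ hp
  have h0 : constantCoeff (Y.charpoly.coeff i) = 0 := by
    rw [← Polynomial.coeff_map, ← Matrix.charpoly_map,
      show Y.map (constantCoeff (R := K)) = 0 by ext a b; simp [Y], Matrix.charpoly_zero,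
      Polynomial.coeff_X_pow, if_neg hi.ne]
  rwa [h0, C_0, sub_zero, show φ (Y.charpoly.coeff i) = x.charpoly.coeff i by
    rw [← hφY, show φ.toRingHom.mapMatrix Y = Y.map φ.toRingHom from rfl, Matrix.charpoly_map,
      Polynomial.coeff_map]
    rfl] at h

/-- A power of a combination of words has coefficients with a trace as a factor. -/
theorem pow_card_mem {x : Matrix ι ι (MvPolynomial (τ × ι × ι) K)} (hx : x ∈ wordSpan K τ ι) :
    x ^ Fintype.card ι ∈ augMat K τ ι := by
  rcases isEmpty_or_nonempty ι with he | he
  · rw [show x ^ Fintype.card ι = 0 from Subsingleton.elim _ _]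
    exact zero_mem _
  have h := x.aeval_self_charpoly
  rw [Polynomial.aeval_eq_sum_range, x.charpoly_natDegree_eq_dim, Finset.sum_range_succ,
    show x.charpoly.coeff (Fintype.card ι) = 1 by
      have := x.charpoly_monic.coeff_natDegree
      rwa [x.charpoly_natDegree_eq_dim] at this, one_smul] at h
  rw [eq_neg_of_add_eq_zero_right h]
  refine neg_mem (sum_mem fun i hi => smul_mem_augMat
    (charpoly_coeff_mem hx (Finset.mem_range.1 hi)) ?_)
  rcases IsFactor.pow (S := wordAlg K τ ι) hx i with h' | h'
  · exact Or.inl h'
  · exact Or.inr h'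

omit [CharZero K] in
/-- The entries of a word are homogeneous of its length. -/
theorem isHomogeneous_wordMat (w : List τ) : ∀ i j : ι,
    (wordMat K τ ι w i j).IsHomogeneous w.length := by
  induction w with
  | nil =>
    intro i j
    simp only [wordMat, List.map_nil, List.prod_nil, Matrix.one_apply, List.length_nil]
    split_ifs
    · exact isHomogeneous_one _ _
    · exact isHomogeneous_zero _ _ _
  | cons a w ih =>
    intro i j
    rw [show wordMat K τ ι (a :: w) = gen K ι a * wordMat K τ ι w from rfl, Matrix.mul_apply,
      List.length_cons, add_comm]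
    exact IsHomogeneous.sum _ _ _ fun l _ => (isHomogeneous_X K _).mul (ih l j)

omit [CharZero K] in
theorem isHomogeneous_trace (w : List τ) : (wordMat K τ ι w).trace.IsHomogeneous w.length :=
  IsHomogeneous.sum _ _ _ fun i _ => isHomogeneous_wordMat w i i

variable (K τ ι) in
/-- The algebra of the traces of short words. -/
def shortAlg : Subalgebra K (MvPolynomial (τ × ι × ι) K) :=
  Algebra.adjoin K ((fun w : List τ => (wordMat K τ ι w).trace) ''
    {w | w.length ≤ 2 ^ Fintype.card ι - 1})

/-- **The bound on the length of the words.** -/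
theorem trace_mem_shortAlg : ∀ (L : ℕ) (w : List τ), w.length = L →
    (wordMat K τ ι w).trace ∈ shortAlg K τ ι := by
  intro L
  induction L using Nat.strong_induction_on with
  | _ L ih =>
    intro w hw
    set N := 2 ^ Fintype.card ι - 1
    rcases Nat.lt_or_ge N L with hL | hL
    swap
    · exact Algebra.subset_adjoin ⟨w, show w.length ≤ N by omega, rfl⟩
    have hmem : (wordMat K τ ι (w.take N)) ∈ augMat K τ ι := by
      refine prod_mem (S := wordAlg K τ ι) _ _ stable_augMat (fun x hx => pow_card_mem hx) _
        (by rw [List.length_map, List.length_take]; omega) fun a ha => ?_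
      obtain ⟨t, -, rfl⟩ := List.mem_map.1 ha
      exact Submodule.subset_span ⟨[t], List.cons_ne_nil _ _, by simp [wordMat]⟩
    set b := w.drop N with hb
    have hblen : b.length = L - N := by rw [hb, List.length_drop, hw]
    have hgen : ∀ q ∈ traceMon K τ ι, ∃ d, q.IsHomogeneous d ∧ (d < L → q ∈ shortAlg K τ ι) :=
      fun q hq => by
        induction hq using Submonoid.closure_induction with
        | mem q hq =>
          obtain ⟨u, rfl⟩ := hq
          exact ⟨u.length, isHomogeneous_trace u, fun h => ih _ h u rfl⟩
        | one => exact ⟨0, isHomogeneous_one _ _, fun _ => one_mem _⟩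
        | mul p q _ _ hp hq =>
          obtain ⟨d, hd, hd'⟩ := hp
          obtain ⟨e, he, he'⟩ := hq
          exact ⟨d + e, hd.mul he, fun h => mul_mem (hd' (by omega)) (he' (by omega))⟩
    have hcomp : ∀ a ∈ augMat K τ ι,
        homogeneousComponent L ((a * wordMat K τ ι b).trace) ∈ shortAlg K τ ι := fun a ha => by
      induction ha using Submodule.span_induction with
      | mem a ha =>
        obtain ⟨r, hr, u, rfl⟩ := ha
        rw [Matrix.smul_mul, Matrix.trace_smul, smul_eq_mul, ← wordMat_append]
        induction hr using Submodule.span_induction with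
        | mem r hr =>
          obtain ⟨v, hv, q, hq, rfl⟩ := hr
          obtain ⟨d, hd, hd'⟩ := hgen q hq
          have hh := ((isHomogeneous_trace (K := K) (ι := ι) v).mul hd).mul
            (isHomogeneous_trace (K := K) (ι := ι) (u ++ b))
          rw [homogeneousComponent_of_mem hh]
          split_ifs with hdeg
          · have h1 : 0 < v.length := List.length_pos_iff.2 hv
            rw [List.length_append] at hdeg
            exact mul_mem (mul_mem (ih _ (by omega) v rfl) (hd' (by omega)))
              (ih _ (by rw [List.length_append]; omega) (u ++ b) rfl)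
          · exact zero_mem _
        | zero => rw [zero_mul, map_zero]; exact zero_mem _
        | add p q _ _ hp hq => rw [add_mul, map_add]; exact add_mem hp hq
        | smul t p _ hp => rw [smul_mul_assoc, map_smul]; exact Subalgebra.smul_mem _ hp t
      | zero => rw [zero_mul, Matrix.trace_zero, map_zero]; exact zero_mem _
      | add p q _ _ hp hq => rw [add_mul, Matrix.trace_add, map_add]; exact add_mem hp hq
      | smul t p _ hp =>
        rw [smul_mul_assoc, Matrix.trace_smul, map_smul]
        exact Subalgebra.smul_mem _ hp t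
    have h := hcomp _ hmem
    rw [← wordMat_append, hb, List.take_append_drop,
      homogeneousComponent_of_mem (isHomogeneous_trace w), if_pos hw.symm] at h
    exact h

/-- **Procesi's finiteness.** -/
theorem traceAlg_eq_shortAlg : traceAlg K τ ι = shortAlg K τ ι := by
  refine le_antisymm (Algebra.adjoin_le ?_) (Algebra.adjoin_mono ?_)
  · rintro _ ⟨w, rfl⟩
    exact trace_mem_shortAlg _ w rfl
  · rintro _ ⟨w, -, rfl⟩
    exact ⟨w, rfl⟩

theorem traceAlg_fg [Fintype τ] : (traceAlg K τ ι).FG := by
  rw [traceAlg_eq_shortAlg]
  exact Subalgebra.fg_def.2 ⟨_, (List.finite_length_le τ _).image _, rfl⟩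

end FA.NagataHigman
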